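/-
S52 (the 3–5 switch), node [RAM-BRIDGE] (helper13), file 1.  Prefix `s52rb_`.
Namespace `Fermat.Agent.S52`.  Mathlib + the inertia criterion of `S55/LevelFields.lean`.

THE RESIDUE FIELD OF AN EXTENSION OF A DEGREE-ONE PLACE, AND `DECOMPOSITION = INERTIA`.

`k` algebraically closed, `k ⊆ F ⊆ Ω` fields, `Ω / F` algebraic, `v` a valuation subring of `F`
with `v = k + 𝔪_v`, `A` a valuation subring of `Ω` over `v`:

* `s52rb_residue`     : `A = k + 𝔪_A`;
* `s52rb_mem_inertia` : a `k`-linear automorphism `σ'` of `Ω / K₀` with `σ' • A = A` lies in the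
                        inertia group `A.inertiaSubgroupIn K₀`.
-/
import Mathlib
import Fermat.Agent.S55.LevelFields

set_option autoImplicit false

open scoped Pointwise

namespace Fermat.Agent.S52

open Polynomial

section general

variable {Ω : Type*} [Field Ω] (A : ValuationSubring Ω)

theorem s52rb_mul_mem_nonunits {x y : Ω} (hx : x ∈ A) (hy : y ∈ A) (h : x * y ∈ A.nonunits) :
    x ∈ A.nonunits ∨ y ∈ A.nonunits := by
  rw [ValuationSubring.mem_nonunits_iff] at h ⊢
  rw [ValuationSubring.mem_nonunits_iff]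
  by_contra hcon
  push Not at hcon
  have h1 : A.valuation x = 1 := le_antisymm ((A.valuation_le_one_iff _).mpr hx) hcon.1
  have h2 : A.valuation y = 1 := le_antisymm ((A.valuation_le_one_iff _).mpr hy) hcon.2
  rw [map_mul, h1, h2, mul_one] at h
  exact lt_irrefl _ h

theorem s52rb_sub_mem_nonunits {x y : Ω} (hx : x ∈ A.nonunits) (hy : y ∈ A.nonunits) :
    x - y ∈ A.nonunits := by
  rw [ValuationSubring.mem_nonunits_iff] at hx hy ⊢
  exact lt_of_le_of_lt (A.valuation.map_sub x y) (max_lt hx hy)

theorem s52rb_add_mem_nonunits {x y : Ω} (hx : x ∈ A.nonunits) (hy : y ∈ A.nonunits) :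
    x + y ∈ A.nonunits := by
  rw [ValuationSubring.mem_nonunits_iff] at hx hy ⊢
  exact lt_of_le_of_lt (A.valuation.map_add x y) (max_lt hx hy)

theorem s52rb_mul_mem_nonunits_left {x y : Ω} (hx : x ∈ A.nonunits) (hy : y ∈ A) :
    x * y ∈ A.nonunits := by
  rw [ValuationSubring.mem_nonunits_iff] at hx ⊢
  rw [map_mul]
  exact mul_lt_one_of_nonneg_of_lt_one_left zero_le hx ((A.valuation_le_one_iff _).mpr hy)

theorem s52rb_nonunits_mem {x : Ω} (hx : x ∈ A.nonunits) : x ∈ A :=
  ValuationSubring.nonunits_subset hx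

end general

section residue

variable {k F Ω : Type*} [Field k] [IsAlgClosed k] [Field F] [Field Ω] [Algebra k F]
  [Algebra F Ω] [Algebra k Ω] [IsScalarTower k F Ω]

/-- nonunits of `A` and of `A ∩ F`. -/
theorem s52rb_comap_nonunits (A : ValuationSubring Ω) (f : F) :
    algebraMap F Ω f ∈ A.nonunits ↔ f ∈ (A.comap (algebraMap F Ω)).nonunits := by
  rw [ValuationSubring.mem_nonunits_iff_or, ValuationSubring.mem_nonunits_iff_or,
    ValuationSubring.mem_comap, map_inv₀, map_eq_zero]

/-- the constants are units of `A` -/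
theorem s52rb_const_not_mem_nonunits (A : ValuationSubring Ω)
    (hk : ∀ c : k, algebraMap k Ω c ∈ A) {c : k} (hc : c ≠ 0) :
    algebraMap k Ω c ∉ A.nonunits := by
  rw [ValuationSubring.mem_nonunits_iff_or, not_or]
  refine ⟨by rwa [map_eq_zero], ?_⟩
  rw [not_not, ← map_inv₀]
  exact hk _

/-- a nonzero polynomial over `k` whose value at `z ∈ A` is a nonunit has a root congruent to `z`. -/
theorem s52rb_root_of_nonunit (A : ValuationSubring Ω) (hk : ∀ c : k, algebraMap k Ω c ∈ A)
    {z : Ω} (hz : z ∈ A) :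
    ∀ (n : ℕ) (r : k[X]), r.natDegree = n → r ≠ 0 → aeval z r ∈ A.nonunits →
      ∃ c : k, z - algebraMap k Ω c ∈ A.nonunits := by
  intro n
  induction n with
  | zero =>
    intro r hdeg hr0 hr
    exfalso
    rw [Polynomial.eq_C_of_natDegree_eq_zero hdeg, aeval_C] at hr
    refine s52rb_const_not_mem_nonunits A hk ?_ hr
    intro h0
    apply hr0
    rw [Polynomial.eq_C_of_natDegree_eq_zero hdeg, h0, C_0]
  | succ n ih =>
    intro r hdeg hr0 hr
    have hdeg' : r.degree ≠ 0 := by
      rw [Polynomial.degree_eq_natDegree hr0, hdeg]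
      exact_mod_cast Nat.succ_ne_zero n
    obtain ⟨α, hα⟩ := IsAlgClosed.exists_root r hdeg'
    obtain ⟨q, hq⟩ := Polynomial.dvd_iff_isRoot.mpr hα
    have hq0 : q ≠ 0 := by
      rintro rfl
      exact hr0 (by rw [hq, mul_zero])
    have hqdeg : q.natDegree = n := by
      have := congrArg Polynomial.natDegree hq
      rw [Polynomial.natDegree_mul (Polynomial.X_sub_C_ne_zero α) hq0,
        Polynomial.natDegree_X_sub_C, hdeg] at this
      omega
    rw [hq, map_mul, map_sub, aeval_X, aeval_C] at hr
    have hqA : aeval z q ∈ A := by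
      rw [Polynomial.aeval_eq_sum_range]
      refine sum_mem fun i _ => ?_
      rw [Algebra.smul_def]
      exact A.mul_mem _ _ (hk _) (pow_mem hz i)
    rcases s52rb_mul_mem_nonunits A (A.sub_mem hz (hk α)) hqA hr with h | h
    · exact ⟨α, h⟩
    · exact ih q hqdeg hq0 h

variable [Algebra.IsAlgebraic F Ω]

/-- **(B3)** the residue field of an extension of a degree-one place is the field of constants. -/
theorem s52rb_residue (A : ValuationSubring Ω)
    (hk : ∀ c : k, algebraMap k F c ∈ A.comap (algebraMap F Ω))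
    (hres : ∀ f ∈ A.comap (algebraMap F Ω),
      ∃ c : k, f - algebraMap k F c ∈ (A.comap (algebraMap F Ω)).nonunits) :
    ∀ z ∈ A, ∃ c : k, z - algebraMap k Ω c ∈ A.nonunits := by
  classical
  intro z hz
  set v := A.comap (algebraMap F Ω) with hv
  have hkΩ : ∀ c : k, algebraMap k Ω c ∈ A := by
    intro c
    rw [IsScalarTower.algebraMap_apply k F Ω]
    exact hk c
  -- an algebraic relation
  obtain ⟨p, hp0, hpz⟩ := (Algebra.IsAlgebraic.isAlgebraic (R := F) z)
  -- the coefficient of largest valuation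
  have hsupp : p.support.Nonempty := by
    rw [Finset.nonempty_iff_ne_empty, Ne, Polynomial.support_eq_empty]
    exact hp0
  obtain ⟨i₀, hi₀, hmax⟩ := Finset.exists_max_image p.support
    (fun i => v.valuation (p.coeff i)) hsupp
  have hci₀ : p.coeff i₀ ≠ 0 := Polynomial.mem_support_iff.mp hi₀
  -- the normalised coefficients
  have hcoef : ∀ i, p.coeff i / p.coeff i₀ ∈ v := by
    intro i
    rw [← v.valuation_le_one_iff, map_div₀]
    by_cases hi : i ∈ p.support
    · exact div_le_one_of_le₀ (hmax i hi) zero_le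
    · rw [Polynomial.notMem_support_iff.mp hi, map_zero, zero_div]
      exact zero_le
  choose c hc using fun i => hres _ (hcoef i)
  -- the residue polynomial
  set r : k[X] := ∑ i ∈ p.support, C (c i) * X ^ i with hr
  have hrcoeff : ∀ i ∈ p.support, r.coeff i = c i := by
    intro i hi
    rw [hr, Polynomial.finsetSum_coeff]
    rw [Finset.sum_eq_single i]
    · rw [Polynomial.coeff_C_mul, Polynomial.coeff_X_pow, if_pos rfl, mul_one]
    · intro j _ hji
      rw [Polynomial.coeff_C_mul, Polynomial.coeff_X_pow, if_neg (Ne.symm hji), mul_zero]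
    · intro h
      exact absurd hi h
  have hci₀' : c i₀ ≠ 0 := by
    intro h0
    have h1 := hc i₀
    rw [h0, map_zero, sub_zero, div_self hci₀] at h1
    rw [ValuationSubring.mem_nonunits_iff, map_one] at h1
    exact lt_irrefl _ h1
  have hr0 : r ≠ 0 := by
    intro h0
    apply hci₀'
    rw [← hrcoeff i₀ hi₀, h0, Polynomial.coeff_zero]
  -- its value at `z` is a nonunit
  have hval : aeval z r ∈ A.nonunits := by
    have h1 : aeval z r = ∑ i ∈ p.support, algebraMap k Ω (c i) * z ^ i := by
      rw [hr, map_sum]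
      refine Finset.sum_congr rfl fun i _ => ?_
      rw [map_mul, aeval_C, map_pow, aeval_X]
    have h2 : (0 : Ω) = ∑ i ∈ p.support, algebraMap F Ω (p.coeff i / p.coeff i₀) * z ^ i := by
      have h3 : aeval z p = ∑ i ∈ p.support, algebraMap F Ω (p.coeff i) * z ^ i := by
        rw [Polynomial.aeval_def, Polynomial.eval₂_eq_sum, Polynomial.sum_def]
      rw [hpz] at h3
      have h4 : ∑ i ∈ p.support, algebraMap F Ω (p.coeff i / p.coeff i₀) * z ^ i
          = (algebraMap F Ω (p.coeff i₀))⁻¹ * ∑ i ∈ p.support, algebraMap F Ω (p.coeff i) * z ^ i := by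
        rw [Finset.mul_sum]
        refine Finset.sum_congr rfl fun i _ => ?_
        rw [map_div₀]
        ring
      rw [h4, ← h3, mul_zero]
    have h5 : aeval z r = -∑ i ∈ p.support,
        algebraMap F Ω (p.coeff i / p.coeff i₀ - algebraMap k F (c i)) * z ^ i := by
      rw [h1, ← sub_zero (∑ i ∈ p.support, algebraMap k Ω (c i) * z ^ i), h2,
        ← Finset.sum_sub_distrib, ← Finset.sum_neg_distrib]
      refine Finset.sum_congr rfl fun i _ => ?_
      rw [map_sub, ← IsScalarTower.algebraMap_apply k F Ω]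
      ring
    rw [h5]
    have hsum : ∀ s : Finset ℕ, ∑ i ∈ s,
        algebraMap F Ω (p.coeff i / p.coeff i₀ - algebraMap k F (c i)) * z ^ i ∈ A.nonunits := by
      intro s
      induction s using Finset.induction_on with
      | empty =>
        rw [Finset.sum_empty]
        exact A.nonunits.zero_mem
      | insert a s ha ih =>
        rw [Finset.sum_insert ha]
        refine s52rb_add_mem_nonunits A ?_ ih
        refine s52rb_mul_mem_nonunits_left A ?_ (pow_mem hz a)
        rw [s52rb_comap_nonunits]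
        exact hc a
    have := hsum p.support
    rw [ValuationSubring.mem_nonunits_iff] at this ⊢
    rwa [Valuation.map_neg]
  exact s52rb_root_of_nonunit A hkΩ hz r.natDegree r rfl hr0 hval

end residue

section inertia

variable {k K₀ Ω : Type*} [Field k] [Field K₀] [Field Ω] [Algebra k Ω] [Algebra K₀ Ω]

theorem s52rb_apply_mem_iff {A : ValuationSubring Ω} {σ : Ω ≃ₐ[K₀] Ω} (hσ : σ • A = A) (y : Ω) :
    σ y ∈ A ↔ y ∈ A := by
  constructor
  · intro h
    rw [← hσ, ValuationSubring.mem_smul_pointwise_iff_exists] at h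
    obtain ⟨a, ha, hay⟩ := h
    have : a = y := σ.injective hay
    rwa [← this]
  · intro h
    rw [← hσ, ValuationSubring.mem_smul_pointwise_iff_exists]
    exact ⟨y, h, rfl⟩

theorem s52rb_apply_mem_nonunits {A : ValuationSubring Ω} {σ : Ω ≃ₐ[K₀] Ω} (hσ : σ • A = A)
    {y : Ω} (hy : y ∈ A.nonunits) : σ y ∈ A.nonunits := by
  rw [ValuationSubring.mem_nonunits_iff_or] at hy ⊢
  rcases hy with h | h
  · left
    rw [h, map_zero]
  · right
    rw [← map_inv₀, s52rb_apply_mem_iff hσ]
    exact h

/-- **(B4)** `decomposition = inertia` when the residue field consists of fixed constants. -/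
theorem s52rb_mem_inertia (A : ValuationSubring Ω) (σ : Ω ≃ₐ[K₀] Ω) (hσ : σ • A = A)
    (hσk : ∀ c : k, σ (algebraMap k Ω c) = algebraMap k Ω c)
    (hres : ∀ z ∈ A, ∃ c : k, z - algebraMap k Ω c ∈ A.nonunits) :
    σ ∈ A.inertiaSubgroupIn K₀ := by
  rw [Fermat.Agent.S55.tl_mem_inertiaSubgroupIn_iff]
  refine ⟨hσ, fun z hz => ?_⟩
  obtain ⟨c, hc⟩ := hres z hz
  have e : σ z - z = σ (z - algebraMap k Ω c) - (z - algebraMap k Ω c) := by
    rw [map_sub, hσk]
    ring
  rw [e]
  exact s52rb_sub_mem_nonunits A (s52rb_apply_mem_nonunits hσ hc) hc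

end inertia

end Fermat.Agent.S52
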