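/-
S52 (the 3–5 switch), node [RAM-BRIDGE] (helper13), file 2.  Prefix `s52rb_`.
Namespace `Fermat.Agent.S52`.  On top of `RAMB/Residue.lean` and `S24/Hurwitz/Interface.lean`.

FROM A PLACE `v` OF THE FUNCTION FIELD `F / k` STABILISED BY `σ ∈ Gal(F / k(x))` TO AN INERTIA
ELEMENT OF A VALUATION SUBRING `A` OF `Ω ⊇ F`.

* `s52rb_smul_eq_of_maps`   : `σ(O) ⊆ O` and `σ` of finite order ⟹ `σ • O = O`;
* `s52rb_place_res`         : `O_v = k + 𝔪_v` (degree one), in `nonunits` vocabulary;
* `s52rb_residue_place`     : `A = k + 𝔪_A` for `A` over `O_v`;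
* `s52rb_main_of`           : the bridge theorem, from any `(A, σ')` with `σ' • A = A` over `(v, σ)`;
* the valuation dictionary `s52rb_val_le_one_iff`, `s52rb_val_lt_one_iff`, `s52rb_val_eq_one_iff`,
  `s52rb_val_const`, `s52rb_val_natCast`, `s52rb_val_over`, `s52rb_val_over_ne`, `s52rb_val_infty`,
  `s52rb_val_infty_sub`, `s52rb_over_or_infty`.
-/
import Mathlib
import Fermat.Agent.S52.RAMB.Residue
import Fermat.Agent.S24.Hurwitz.Interface

set_option autoImplicit false
set_option linter.unusedSectionVars false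

open scoped Pointwise

namespace Fermat.Agent.S52

open AlgebraicCurve IntermediateField
open Fermat.Agent.S24

section stab

variable {K₀ F : Type*} [Field K₀] [Field F] [Algebra K₀ F]

theorem s52rb_pow_maps (O : ValuationSubring F) (σ : F ≃ₐ[K₀] F)
    (hσ : ∀ f ∈ O, σ f ∈ O) (m : ℕ) : ∀ f ∈ O, (σ ^ m) f ∈ O := by
  induction m with
  | zero =>
    intro f hf
    rw [pow_zero]
    exact hf
  | succ m ih =>
    intro f hf
    rw [pow_succ]
    exact ih _ (hσ f hf)

/-- `σ(O) ⊆ O` for `σ` of finite order forces `σ • O = O`. -/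
theorem s52rb_smul_eq_of_maps (O : ValuationSubring F) (σ : F ≃ₐ[K₀] F)
    (hfin : IsOfFinOrder σ) (hσ : ∀ f ∈ O, σ f ∈ O) : σ • O = O := by
  apply le_antisymm
  · intro y hy
    rw [ValuationSubring.mem_smul_pointwise_iff_exists] at hy
    obtain ⟨a, ha, rfl⟩ := hy
    exact hσ a ha
  · intro y hy
    rw [ValuationSubring.mem_pointwise_smul_iff_inv_smul_mem]
    have hn : 0 < orderOf σ := hfin.orderOf_pos
    have hinv : σ⁻¹ = σ ^ (orderOf σ - 1) := by
      rw [inv_eq_iff_mul_eq_one, ← pow_succ', Nat.sub_add_cancel hn, pow_orderOf_eq_one]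
    rw [hinv]
    exact s52rb_pow_maps O σ hσ _ y hy

end stab

section dict

variable {F Ω : Type*} [Field F] [Field Ω] [Algebra F Ω]

theorem s52rb_val_le_one_iff (A : ValuationSubring Ω) (f : F) :
    A.valuation (algebraMap F Ω f) ≤ 1 ↔ f ∈ A.comap (algebraMap F Ω) := by
  rw [A.valuation_le_one_iff, ValuationSubring.mem_comap]

theorem s52rb_val_lt_one_iff (A : ValuationSubring Ω) (f : F) :
    A.valuation (algebraMap F Ω f) < 1 ↔ f ∈ (A.comap (algebraMap F Ω)).nonunits := by
  rw [← s52rb_comap_nonunits, ValuationSubring.mem_nonunits_iff]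

end dict

section place

variable {k F Ω : Type*} [Field k] [Field F] [Algebra k F] [Field Ω] [Algebra F Ω] [Algebra k Ω]
  [IsScalarTower k F Ω]

/-- nonunits of `O_v` in terms of `ord`. -/
theorem s52rb_mem_nonunits_iff_ord (v : Place k F) {f : F} (hf : f ≠ 0) :
    f ∈ v.toValuationSubring.nonunits ↔ 0 < v.ord f := by
  rw [hw_ord_pos_iff v hf, ValuationSubring.mem_nonunits_iff_or]
  constructor
  · rintro (h | h)
    · exact absurd h hf
    · exact h
  · intro h
    exact Or.inr h

/-- the constants lie in `O_v`, in `comap` vocabulary. -/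
theorem s52rb_const_mem (v : Place k F) (A : ValuationSubring Ω)
    (hA : A.comap (algebraMap F Ω) = v.toValuationSubring) (c : k) : algebraMap k Ω c ∈ A := by
  have h := v.algebraMap_mem' c
  rw [← hA, ValuationSubring.mem_comap, ← IsScalarTower.algebraMap_apply] at h
  exact h

/-- nonzero constants have valuation one. -/
theorem s52rb_val_const (v : Place k F) (A : ValuationSubring Ω)
    (hA : A.comap (algebraMap F Ω) = v.toValuationSubring) {c : k} (hc : c ≠ 0) :
    A.valuation (algebraMap k Ω c) = 1 := by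
  apply le_antisymm
  · rw [A.valuation_le_one_iff]
    exact s52rb_const_mem v A hA c
  · have h := s52rb_const_mem v A hA c⁻¹
    rw [← A.valuation_le_one_iff, map_inv₀, map_inv₀] at h
    have h0 : A.valuation (algebraMap k Ω c) ≠ 0 := by
      rw [Ne, map_eq_zero, map_eq_zero]
      exact hc
    rwa [inv_le_one₀ (zero_lt_iff.mpr h0)] at h

/-- nonzero integers have valuation one (characteristic zero). -/
theorem s52rb_val_natCast [CharZero k] (v : Place k F) (A : ValuationSubring Ω)
    (hA : A.comap (algebraMap F Ω) = v.toValuationSubring) {n : ℕ} (hn : n ≠ 0) :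
    A.valuation (n : Ω) = 1 := by
  have h := s52rb_val_const v A hA (c := (n : k)) (Nat.cast_ne_zero.mpr hn)
  rwa [map_natCast] at h

theorem s52rb_val_intCast [CharZero k] (v : Place k F) (A : ValuationSubring Ω)
    (hA : A.comap (algebraMap F Ω) = v.toValuationSubring) {n : ℤ} (hn : n ≠ 0) :
    A.valuation (n : Ω) = 1 := by
  have h := s52rb_val_const v A hA (c := (n : k)) (Int.cast_ne_zero.mpr hn)
  rwa [map_intCast] at h

/-- `v_A(r) < 1 ↔ ord_v(r) > 0`. -/
theorem s52rb_val_lt_one_iff_ord (v : Place k F) (A : ValuationSubring Ω)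
    (hA : A.comap (algebraMap F Ω) = v.toValuationSubring) {r : F} (hr : r ≠ 0) :
    A.valuation (algebraMap F Ω r) < 1 ↔ 0 < v.ord r := by
  rw [s52rb_val_lt_one_iff, hA, s52rb_mem_nonunits_iff_ord v hr]

/-- `v_A(r) ≤ 1 ↔ ord_v(r) ≥ 0`. -/
theorem s52rb_val_le_one_iff_ord (v : Place k F) (A : ValuationSubring Ω)
    (hA : A.comap (algebraMap F Ω) = v.toValuationSubring) {r : F} (hr : r ≠ 0) :
    A.valuation (algebraMap F Ω r) ≤ 1 ↔ 0 ≤ v.ord r := by
  rw [s52rb_val_le_one_iff, hA, hw_mem_iff_ord_nonneg v hr]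

/-- `1 < v_A(r) ↔ ord_v(r) < 0`. -/
theorem s52rb_one_lt_val_iff_ord (v : Place k F) (A : ValuationSubring Ω)
    (hA : A.comap (algebraMap F Ω) = v.toValuationSubring) {r : F} (hr : r ≠ 0) :
    1 < A.valuation (algebraMap F Ω r) ↔ v.ord r < 0 := by
  rw [← not_le, s52rb_val_le_one_iff_ord v A hA hr, not_le]

/-- `v_A(r) = 1 ↔ ord_v(r) = 0`. -/
theorem s52rb_val_eq_one_iff_ord (v : Place k F) (A : ValuationSubring Ω)
    (hA : A.comap (algebraMap F Ω) = v.toValuationSubring) {r : F} (hr : r ≠ 0) :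
    A.valuation (algebraMap F Ω r) = 1 ↔ v.ord r = 0 := by
  have h1 := s52rb_val_lt_one_iff_ord v A hA hr
  have h2 := s52rb_val_le_one_iff_ord v A hA hr
  constructor
  · intro h
    rw [h] at h1 h2
    have h3 : ¬ 0 < v.ord r := fun h' => lt_irrefl _ (h1.mpr h')
    have h4 : 0 ≤ v.ord r := h2.mp le_rfl
    omega
  · intro h
    rw [h] at h1 h2
    have h3 : ¬ A.valuation (algebraMap F Ω r) < 1 := fun h' => lt_irrefl _ (h1.mp h')
    exact le_antisymm (h2.mpr le_rfl) (not_lt.mp h3)

/-- over `x = c`: `v_A(x − c) < 1`. -/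
theorem s52rb_val_over (v : Place k F) (A : ValuationSubring Ω)
    (hA : A.comap (algebraMap F Ω) = v.toValuationSubring) (x : F) (c : k)
    (hv : v ∈ hw_placesOver x c) :
    A.valuation (algebraMap F Ω x - algebraMap k Ω c) < 1 := by
  have hv' : 0 < v.ord (x - algebraMap k F c) := hv
  have hne : x - algebraMap k F c ≠ 0 := by
    intro h
    rw [h, Place.ord_zero] at hv'
    exact lt_irrefl _ hv'
  have h := (s52rb_val_lt_one_iff_ord v A hA hne).mpr hv'
  rwa [map_sub, ← IsScalarTower.algebraMap_apply] at h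

/-- over `x = c`: `v_A(x − c') = 1` for `c' ≠ c`. -/
theorem s52rb_val_over_ne (v : Place k F) (A : ValuationSubring Ω)
    (hA : A.comap (algebraMap F Ω) = v.toValuationSubring) (x : F) (c c' : k) (hc : c' ≠ c)
    (hv : v ∈ hw_placesOver x c) :
    A.valuation (algebraMap F Ω x - algebraMap k Ω c') = 1 := by
  have h1 := s52rb_val_over v A hA x c hv
  have h2 : A.valuation (algebraMap k Ω (c - c')) = 1 :=
    s52rb_val_const v A hA (sub_ne_zero.mpr (Ne.symm hc))
  have e : algebraMap F Ω x - algebraMap k Ω c'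
      = algebraMap k Ω (c - c') + (algebraMap F Ω x - algebraMap k Ω c) := by
    rw [map_sub]
    ring
  rw [e, Valuation.map_add_eq_of_lt_left _ (by rw [h2]; exact h1), h2]

/-- over `x = c`: `v_A(x) ≤ 1`. -/
theorem s52rb_val_over_le (v : Place k F) (A : ValuationSubring Ω)
    (hA : A.comap (algebraMap F Ω) = v.toValuationSubring) (x : F) (c : k)
    (hv : v ∈ hw_placesOver x c) :
    A.valuation (algebraMap F Ω x) ≤ 1 := by
  have h1 := s52rb_val_over v A hA x c hv
  have h2 : A.valuation (algebraMap k Ω c) ≤ 1 := by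
    rw [A.valuation_le_one_iff]
    exact s52rb_const_mem v A hA c
  have e : algebraMap F Ω x = (algebraMap F Ω x - algebraMap k Ω c) + algebraMap k Ω c := by ring
  rw [e]
  exact le_trans (A.valuation.map_add _ _) (max_le h1.le h2)

/-- at `x = ∞`: `1 < v_A(x)`. -/
theorem s52rb_val_infty (v : Place k F) (A : ValuationSubring Ω)
    (hA : A.comap (algebraMap F Ω) = v.toValuationSubring) (x : F)
    (hv : v ∈ hw_placesAtInfty (K := k) x) :
    1 < A.valuation (algebraMap F Ω x) := by
  have hv' : v.ord x < 0 := hv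
  have hne : x ≠ 0 := by
    intro h
    rw [h, Place.ord_zero] at hv'
    exact lt_irrefl _ hv'
  exact (s52rb_one_lt_val_iff_ord v A hA hne).mpr hv'

/-- at `x = ∞`: `v_A(x − c) = v_A(x)`. -/
theorem s52rb_val_infty_sub (v : Place k F) (A : ValuationSubring Ω)
    (hA : A.comap (algebraMap F Ω) = v.toValuationSubring) (x : F) (c : k)
    (hv : v ∈ hw_placesAtInfty (K := k) x) :
    A.valuation (algebraMap F Ω x - algebraMap k Ω c) = A.valuation (algebraMap F Ω x) := by
  have h1 := s52rb_val_infty v A hA x hv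
  have h2 : A.valuation (algebraMap k Ω c) ≤ 1 := by
    rw [A.valuation_le_one_iff]
    exact s52rb_const_mem v A hA c
  exact Valuation.map_sub_eq_of_lt_left _ (lt_of_le_of_lt h2 h1)

end place

section main

variable {k F Ω : Type*} [Field k] [IsAlgClosed k] [CharZero k] [Field F] [Algebra k F] [Field Ω]
  [Algebra F Ω] [Algebra k Ω] [IsScalarTower k F Ω]

/-- `O_v = k + 𝔪_v`: every place of a function field over an algebraically closed field has
degree one. -/
theorem s52rb_place_res (x : F) (hx : Transcendental k x) [FiniteDimensional k⟮x⟯ F]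
    (v : Place k F) :
    ∀ f ∈ v.toValuationSubring, ∃ c : k, f - algebraMap k F c ∈ v.toValuationSubring.nonunits := by
  intro f hf
  obtain ⟨c, hc⟩ := hw_residue_surjective x hx v (IsLocalRing.residue v.toValuationSubring ⟨f, hf⟩)
  refine ⟨c, ?_⟩
  have h0 : IsLocalRing.residue v.toValuationSubring
      (⟨f, hf⟩ - algebraMap k v.toValuationSubring c) = 0 := by
    rw [map_sub, ← hc]
    exact sub_self _
  have hmem := (IsLocalRing.residue_eq_zero_iff _).mp h0
  rw [IsLocalRing.mem_maximalIdeal] at hmem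
  have h1 := (ValuationSubring.coe_mem_nonunits_iff (A := v.toValuationSubring)).mpr hmem
  exact h1

/-- every place is over a finite value of `x` or over `x = ∞`. -/
theorem s52rb_over_or_infty (x : F) (hx : Transcendental k x) [FiniteDimensional k⟮x⟯ F]
    (v : Place k F) : (∃ c : k, v ∈ hw_placesOver x c) ∨ v ∈ hw_placesAtInfty (K := k) x := by
  by_cases hxv : x ∈ v.toValuationSubring
  · left
    obtain ⟨c, hc⟩ := s52rb_place_res x hx v x hxv
    refine ⟨c, ?_⟩
    have hne : x - algebraMap k F c ≠ 0 := by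
      intro h
      apply hx
      rw [sub_eq_zero.mp h]
      exact isAlgebraic_algebraMap c
    exact (s52rb_mem_nonunits_iff_ord v hne).mp hc
  · right
    have hx0 : x ≠ 0 := by
      intro h
      apply hx
      rw [h]
      exact isAlgebraic_zero
    show v.ord x < 0
    rw [hw_mem_iff_ord_nonneg v hx0] at hxv
    omega

variable [Algebra.IsAlgebraic F Ω]

/-- `A = k + 𝔪_A` for every valuation subring `A` of `Ω` over a place of `F / k`. -/
theorem s52rb_residue_place (x : F) (hx : Transcendental k x) [FiniteDimensional k⟮x⟯ F]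
    (v : Place k F) (A : ValuationSubring Ω)
    (hA : A.comap (algebraMap F Ω) = v.toValuationSubring) :
    ∀ z ∈ A, ∃ c : k, z - algebraMap k Ω c ∈ A.nonunits := by
  apply s52rb_residue (k := k) (F := F) A
  · intro c
    rw [hA]
    exact v.algebraMap_mem' c
  · rw [hA]
    exact s52rb_place_res x hx v

/-- **[RAM-BRIDGE], conditional form**: any pair `(A, σ')` over `(v, σ)` with `σ' • A = A` has
`σ'` in the inertia group of `A`. -/
theorem s52rb_inertia_of_stab (x : F) (hx : Transcendental k x) [FiniteDimensional k⟮x⟯ F]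
    (v : Place k F) (A : ValuationSubring Ω) (σ' : Ω ≃ₐ[k⟮x⟯] Ω)
    (hA : A.comap (algebraMap F Ω) = v.toValuationSubring) (hσ' : σ' • A = A) :
    σ' ∈ A.inertiaSubgroupIn k⟮x⟯ := by
  refine s52rb_mem_inertia (k := k) A σ' hσ' ?_ (s52rb_residue_place x hx v A hA)
  intro c
  rw [IsScalarTower.algebraMap_apply k k⟮x⟯ Ω, σ'.commutes]

/-- **[RAM-BRIDGE], from the extension theorem of [VALEXT]**. -/
theorem s52rb_main_of (x : F) (hx : Transcendental k x) [FiniteDimensional k⟮x⟯ F]
    (v : Place k F) (σ : F ≃ₐ[k⟮x⟯] F)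
    (hB : ∃ (A : ValuationSubring Ω) (σ' : Ω ≃ₐ[k⟮x⟯] Ω),
      A.comap (algebraMap F Ω) = v.toValuationSubring ∧
      (∀ f : F, σ' (algebraMap F Ω f) = algebraMap F Ω (σ f)) ∧ σ' • A = A) :
    ∃ (A : ValuationSubring Ω) (σ' : Ω ≃ₐ[k⟮x⟯] Ω),
      A.comap (algebraMap F Ω) = v.toValuationSubring ∧
      (∀ f : F, σ' (algebraMap F Ω f) = algebraMap F Ω (σ f)) ∧
      σ' ∈ A.inertiaSubgroupIn k⟮x⟯ := by
  obtain ⟨A, σ', hA, hσ, hstab⟩ := hB
  exact ⟨A, σ', hA, hσ, s52rb_inertia_of_stab x hx v A σ' hA hstab⟩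

/-- the hypothesis `σ(O_v) ⊆ O_v` of [HUR-GAL] is `σ • O_v = O_v`. -/
theorem s52rb_stab_of_maps (x : F) [FiniteDimensional k⟮x⟯ F]
    (v : Place k F) (σ : F ≃ₐ[k⟮x⟯] F)
    (hσ : ∀ f ∈ v.toValuationSubring, σ f ∈ v.toValuationSubring) :
    σ • v.toValuationSubring = v.toValuationSubring :=
  s52rb_smul_eq_of_maps _ σ (isOfFinOrder_of_finite σ) hσ

end main

end Fermat.Agent.S52
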