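/-
S52 (the 3–5 switch), node [RAM-BRIDGE] (helper13), file 3.  Prefix `s52rb_`.
Namespace `Fermat.Agent.S52`.  `RAMB/Main.lean` + helper22's `VAL/Bridge.lean`.

THE CLOSED BRIDGE THEOREM: a place `v` of the function field `F / k` (`k` algebraically closed of
characteristic `0`) and `σ ∈ Gal(F / k(x))` with `σ(O_v) ⊆ O_v` extend to a valuation subring `A`
of the algebraically closed `Ω ⊇ F` and `σ' ∈ Aut(Ω / k(x))` with `σ'` in the INERTIA group of `A`.

* `s52rb_main`    : existence of `(A, σ')`;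
* `s52rb_main_at` : the same at a prescribed `A` above `v`.
-/
import Mathlib
import Fermat.Agent.S52.RAMB.Main
import Fermat.Agent.S52.VAL.Bridge

set_option autoImplicit false
set_option linter.unusedSectionVars false

open scoped Pointwise

namespace Fermat.Agent.S52

open AlgebraicCurve IntermediateField

variable {k F Ω : Type*} [Field k] [IsAlgClosed k] [CharZero k] [Field F] [Algebra k F] [Field Ω]
  [Algebra F Ω] [Algebra k Ω] [IsScalarTower k F Ω] [IsAlgClosed Ω] [Algebra.IsAlgebraic F Ω]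

/-- `Ω / F` is Galois. -/
theorem s52rb_isGalois_top (k : Type*) {F Ω : Type*} [Field k] [CharZero k] [Field F] [Algebra k F]
    [Field Ω] [Algebra F Ω] [IsAlgClosed Ω] [Algebra.IsAlgebraic F Ω] : IsGalois F Ω := by
  have : CharZero F := charZero_of_injective_algebraMap (algebraMap k F).injective
  have : IsAlgClosure F Ω := ⟨inferInstance, inferInstance⟩
  exact IsAlgClosure.isGalois F Ω

/-- `Ω / k(x)` is normal. -/
theorem s52rb_normal_bot (x : F) [FiniteDimensional k⟮x⟯ F] : Normal k⟮x⟯ Ω := by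
  have : Algebra.IsAlgebraic k⟮x⟯ Ω := Algebra.IsAlgebraic.trans k⟮x⟯ F Ω
  have : IsAlgClosure k⟮x⟯ Ω := ⟨inferInstance, inferInstance⟩
  exact IsAlgClosure.normal k⟮x⟯ Ω

/-- **[RAM-BRIDGE] at a prescribed `A` above `v`.** -/
theorem s52rb_main_at (x : F) (hx : Transcendental k x) [FiniteDimensional k⟮x⟯ F]
    (v : Place k F) (σ : F ≃ₐ[k⟮x⟯] F)
    (hσ : ∀ f ∈ v.toValuationSubring, σ f ∈ v.toValuationSubring)
    (A : ValuationSubring Ω) (hA : A.comap (algebraMap F Ω) = v.toValuationSubring) :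
    ∃ σ' : Ω ≃ₐ[k⟮x⟯] Ω, (∀ f : F, σ' (algebraMap F Ω f) = algebraMap F Ω (σ f)) ∧
      σ' ∈ A.inertiaSubgroupIn k⟮x⟯ := by
  have hG : IsGalois F Ω := s52rb_isGalois_top k
  have hN : Normal k⟮x⟯ Ω := s52rb_normal_bot x
  obtain ⟨σ', h1, h2⟩ := s52v_bridge_at v.toValuationSubring σ
    (s52v_stab_iff v.toValuationSubring σ hσ) A hA
  exact ⟨σ', h1, s52rb_inertia_of_stab x hx v A σ' hA h2⟩

/-- **[RAM-BRIDGE]** (helper7's shape #3695). -/
theorem s52rb_main (x : F) (hx : Transcendental k x) [FiniteDimensional k⟮x⟯ F]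
    [IsGalois k⟮x⟯ F] (v : Place k F) (σ : F ≃ₐ[k⟮x⟯] F)
    (hσ : ∀ f ∈ v.toValuationSubring, σ f ∈ v.toValuationSubring) :
    ∃ (A : ValuationSubring Ω) (σ' : Ω ≃ₐ[k⟮x⟯] Ω),
      A.comap (algebraMap F Ω) = v.toValuationSubring ∧
      (∀ f : F, σ' (algebraMap F Ω f) = algebraMap F Ω (σ f)) ∧
      σ' ∈ A.inertiaSubgroupIn k⟮x⟯ := by
  obtain ⟨A, hA⟩ := s52v_exists_ext (Ω := Ω) v.toValuationSubring
  obtain ⟨σ', h1, h2⟩ := s52rb_main_at x hx v σ hσ A hA
  exact ⟨A, σ', hA, h1, h2⟩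

end Fermat.Agent.S52
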